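import Fermat.Agent.S29.H871.Fin
import Fermat.Agent.S29.H282.DFrom

/-!
# S29 / M4b — PIECE `K3` closed (helper282)

`dfromStatement N p : H871.DFromStatement N p` (from `H282.exists_root_of_forall_dvd_ord`), hence
`pieceK3 N p : M4b.PieceK3 N p`, `finStatement N p : K3.FinStatement N p` (via helper871's
`pieceK3_of_dfrom` / `finStatement_of_dfrom`) and the exact skeleton statement
`exists_realised_isTwisted`.
-/

set_option autoImplicit false

noncomputable section

open ModularCurve AlgebraicCurve CongruenceSubgroup UpperHalfPlane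
open scoped MatrixGroups Manifold

namespace Fermat.Agent.S29.H282

open Fermat.Agent.S24 Fermat.Agent.S29 Fermat.Agent.S29.M4b

variable (N : ℕ) [NeZero N] (p : ℕ) [NeZero p]

/-- **K3-DFROM** in helper871's `Prop` shape. -/
theorem dfromStatement : Fermat.Agent.S29.H871.DFromStatement N p := by
  intro f hf0 hdvd
  have hf0' : (f : LaurentSeries ℂ) ≠ 0 := fun h => hf0 (Subtype.ext h)
  obtain ⟨s, hs, hs0, V, hV, -, hVg, hq, -⟩ :=
    exists_root_of_forall_dvd_ord N p f.2 hf0' hdvd
  exact ⟨s, V, hs, hs0, hV, hVg, hq⟩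

/-- **K3-FIN.** -/
theorem finStatement : Fermat.Agent.S29.M4b.K3.FinStatement N p :=
  Fermat.Agent.S29.H871.finStatement_of_dfrom (dfromStatement N p)

/-- **PIECE `K3`** (`Prop` form of `M4b/Top.lean`). -/
theorem pieceK3 : PieceK3 N p :=
  Fermat.Agent.S29.H871.pieceK3_of_dfrom (dfromStatement N p)

/-- **PIECE `K3`**, exact statement of the M4b skeleton. -/
theorem exists_realised_isTwisted {c : G0 N → ZMod p} (hc : IsParHom c) {U : ℍ → ℂ}
    (hU : IsTwisted N p c U) :
    ∃ (U' : ℍ → ℂ) (u : FF N), IsTwisted N p c U' ∧ Realises N u (fun τ => U' τ ^ p) :=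
  Fermat.Agent.S29.M4b.K3.exists_realised_isTwisted_of N p
    (Fermat.Agent.S29.M4b.K3.degStatement N) (finStatement N p) hc hU

end Fermat.Agent.S29.H282
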