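import Fermat.Agent.S24.Deg.H457_Main
import Fermat.Agent.S24.Deg.H457_Degree

/-!
# S29 / M4b / K3-DEG (helper282) — bounded degree of `F_K` over `K(j)` inside `K((q))`

`degStatement_of_embedding` : for every field `K` with `ι : K →+* ℂ`, every element of the function
field `laurentBaseChange K (modularFunctionFieldFull N) ⊆ K((q))` is integral over `K(j)` of degree
`≤ [SL₂(ℤ) : Γ₀(N)]`.  For `K = ℂ` this is (the unfolded form of) helper42's `K3.DegStatement N`
= hypothesis `hdeg` of `H152.desc_main`.
-/

set_option autoImplicit false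

noncomputable section

open Polynomial ModularCurve IntermediateField

namespace Fermat.Agent.S29.H282

open Fermat.Agent.S24 Fermat.Agent.S24.Deg457

variable {K : Type*} [Field K] [Algebra ℚ K]

/-- bounded degree over `K(j)`, inside `K((q))` -/
theorem isIntegral_natDegree_le_of_mem_laurentBaseChange (ι : K →+* ℂ) (N : ℕ) [NeZero N]
    {u : LaurentSeries K} (hu : u ∈ laurentBaseChange K (modularFunctionFieldFull N)) :
    IsIntegral (IntermediateField.adjoin K {coeffEmb K jq}) u ∧
      (minpoly (IntermediateField.adjoin K {coeffEmb K jq}) u).natDegree ≤ Nat.card (XX N) := by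
  obtain ⟨Q, hQ0, hQn, hQ⟩ := algDeg_of_mem_field ι (hyp_complex_card N) hu
  refine isIntegral_and_natDegree_le_of_relation (K := K)
    (M := ↥(IntermediateField.adjoin K {coeffEmb K jq})) (E := LaurentSeries K)
    (AdjoinSimple.gen K (coeffEmb K jq)) ?_ u Q hQ0 _ hQn ?_
  · intro t ht h0
    apply aeval_JK_ne_zero K ht
    have h1 := congrArg
      (algebraMap ↥(IntermediateField.adjoin K {coeffEmb K jq}) (LaurentSeries K)) h0
    rw [← aeval_algebraMap_apply, map_zero, AdjoinSimple.algebraMap_gen] at h1
    exact h1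
  · rw [AdjoinSimple.algebraMap_gen]
    exact hQ

/-- **K3-DEG** (unfolded `K3.DegStatement N`). -/
theorem degStatement_complex (N : ℕ) [NeZero N] :
    ∃ n : ℕ, ∀ u ∈ laurentBaseChange ℂ (modularFunctionFieldFull N),
      IsIntegral (IntermediateField.adjoin ℂ {coeffEmb ℂ jq}) u ∧
        (minpoly (IntermediateField.adjoin ℂ {coeffEmb ℂ jq}) u).natDegree ≤ n :=
  ⟨Nat.card (XX N), fun _ hu =>
    isIntegral_natDegree_le_of_mem_laurentBaseChange (RingHom.id ℂ) N hu⟩

end Fermat.Agent.S29.H282
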